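import Mathlib
import Fermat.Agent.LT.T7.H816.IotaSpec

/-!
# Row LT, tower T7, leaf T7.L2.1.C2.4-I.2 `PreInfC816` (registry row 2470) -- CLOSED (helper62)

OFF-MAIN.  `preInfC62 K K' : H816.PreInfC816 K K'` for ANY extension of number fields, against
`LT/T7/H816/IotaSpec.lean` (helper816@e81f893cb, sha256 c16fad08c5fc320c), byte-identical copy.

Construction.  For an infinite place `w'` of `K'` and `v = w'.comap (K → K')` the ring
homomorphism `K → K' → K'_{w'}` is an isometry for `v`, so it extends to `j_{w'} : K_v → K'_{w'}`
(`Isometry.extensionHom`); `ι_∞ x = (j_{w'} (x_v))_{w'}`.  The embeddings `K'_{w'} → ℂ` and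
`K_v → ℂ` are continuous and, on `K`, equal to `w'.embedding ∘ (K → K')` and `v.embedding`, which
agree up to complex conjugation (`InfinitePlace.mk_eq_iff`).
-/

set_option autoImplicit false
set_option linter.unusedSectionVars false

open NumberField NumberField.InfinitePlace
open scoped ComplexConjugate

noncomputable section

namespace Fermat.Agent.LT.T7.H62I

variable {K K' : Type} [Field K] [NumberField K] [Field K'] [NumberField K'] [Algebra K K']

/-- The ring homomorphism `K → K' → K'_{w'}` on `K` with the absolute value of the place below. -/
def gHom62 (w' : InfinitePlace K') :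
    WithAbs (w'.comap (algebraMap K K')).1 →+* w'.Completion :=
  (algebraMap K' w'.Completion).comp
    ((algebraMap K K').comp (WithAbs.equiv (w'.comap (algebraMap K K')).1).toRingHom)

theorem gHom62_apply (w' : InfinitePlace K') (x : WithAbs (w'.comap (algebraMap K K')).1) :
    gHom62 w' x
      = ((algebraMap K K' (WithAbs.equiv (w'.comap (algebraMap K K')).1 x) : K') :
          w'.Completion) := rfl

theorem norm_coe62 (w' : InfinitePlace K') (y : K') : ‖(y : w'.Completion)‖ = w' y := by
  have h := Completion.norm_coe w' ((WithAbs.equiv w'.1).symm y)
  simpa using h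

theorem extensionEmbedding_coe62 (w' : InfinitePlace K') (y : K') :
    Completion.extensionEmbedding w' (y : w'.Completion) = w'.embedding y :=
  Completion.extensionEmbedding_coe w' ((WithAbs.equiv w'.1).symm y)

theorem isometry_gHom62 (w' : InfinitePlace K') : Isometry (gHom62 (K := K) w') := by
  refine AddMonoidHomClass.isometry_of_norm _ fun x => ?_
  rw [gHom62_apply, norm_coe62]
  rfl

/-- The embedding `K_v → K'_{w'}`, `v` the place below `w'`. -/
def jHom62 (w' : InfinitePlace K') : (w'.comap (algebraMap K K')).Completion →+* w'.Completion :=
  (isometry_gHom62 (K := K) w').extensionHom.comp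
    (Completion.equiv (w'.comap (algebraMap K K'))).toRingHom

theorem jHom62_coe (w' : InfinitePlace K') (x : WithAbs (w'.comap (algebraMap K K')).1) :
    jHom62 w' (x : (w'.comap (algebraMap K K')).Completion) = gHom62 w' x :=
  (isometry_gHom62 (K := K) w').extensionHom_coe x

theorem continuous_jHom62 (w' : InfinitePlace K') : Continuous (jHom62 (K := K) w') :=
  (UniformSpace.Completion.continuous_extension).comp
    (Completion.continuous_toCompletion (w'.comap (algebraMap K K')))

/-- The embeddings into `ℂ`: `w'.embedding ∘ (K → K')` is `v.embedding` or its conjugate. -/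
theorem embedding_below62 (w' : InfinitePlace K') :
    (w'.comap (algebraMap K K')).embedding = w'.embedding.comp (algebraMap K K') ∨
      ComplexEmbedding.conjugate (w'.comap (algebraMap K K')).embedding
        = w'.embedding.comp (algebraMap K K') := by
  have h : InfinitePlace.mk (w'.comap (algebraMap K K')).embedding
      = InfinitePlace.mk (w'.embedding.comp (algebraMap K K')) := by
    rw [InfinitePlace.mk_embedding, ← InfinitePlace.comap_mk, InfinitePlace.mk_embedding]
  exact InfinitePlace.mk_eq_iff.mp h

theorem ext_embedding62 (w' : InfinitePlace K')
    (h : (w'.comap (algebraMap K K')).embedding = w'.embedding.comp (algebraMap K K'))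
    (y : (w'.comap (algebraMap K K')).Completion) :
    Completion.extensionEmbedding w' (jHom62 w' y)
      = Completion.extensionEmbedding (w'.comap (algebraMap K K')) y := by
  induction y using Completion.induction_on with
  | hp =>
    exact isClosed_eq
      ((Completion.isometry_extensionEmbedding w').continuous.comp (continuous_jHom62 w'))
      (Completion.isometry_extensionEmbedding _).continuous
  | ih a =>
    rw [jHom62_coe, gHom62_apply, extensionEmbedding_coe62,
      Completion.extensionEmbedding_coe (w'.comap (algebraMap K K')) a, h]
    rfl

theorem ext_embedding_conj62 (w' : InfinitePlace K')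
    (h : ComplexEmbedding.conjugate (w'.comap (algebraMap K K')).embedding
      = w'.embedding.comp (algebraMap K K'))
    (y : (w'.comap (algebraMap K K')).Completion) :
    Completion.extensionEmbedding w' (jHom62 w' y)
      = conj (Completion.extensionEmbedding (w'.comap (algebraMap K K')) y) := by
  induction y using Completion.induction_on with
  | hp =>
    exact isClosed_eq
      ((Completion.isometry_extensionEmbedding w').continuous.comp (continuous_jHom62 w'))
      (Complex.continuous_conj.comp (Completion.isometry_extensionEmbedding _).continuous)
  | ih a =>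
    have h2 : w'.embedding (algebraMap K K' (WithAbs.equiv _ a))
        = conj ((w'.comap (algebraMap K K')).embedding (WithAbs.equiv _ a)) := by
      have := congrArg (fun φ : K →+* ℂ => φ (WithAbs.equiv _ a)) h
      simpa [ComplexEmbedding.conjugate_coe_eq] using this.symm
    rw [jHom62_coe, gHom62_apply, extensionEmbedding_coe62,
      Completion.extensionEmbedding_coe (w'.comap (algebraMap K K')) a, h2]

variable (K K')

/-- The base change of the infinite adeles. -/
def iotaInf62 : InfiniteAdeleRing K →+* InfiniteAdeleRing K' :=
  RingHom.pi fun w' : InfinitePlace K' =>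
    (jHom62 (K := K) w').comp
      (Pi.evalRingHom (fun v : InfinitePlace K => v.Completion) (w'.comap (algebraMap K K')))

theorem iotaInf62_apply (x : InfiniteAdeleRing K) (w' : InfinitePlace K') :
    iotaInf62 K K' x w' = jHom62 w' (x (w'.comap (algebraMap K K'))) := rfl

/-- **LEAF I.2 = PRE-INF**, verbatim, any extension of number fields. -/
theorem preInfC62 : Fermat.Agent.LT.T7.H816.PreInfC816 K K' := by
  refine ⟨iotaInf62 K K', ?_, ?_, ?_⟩
  · refine continuous_pi fun w' => ?_
    exact (continuous_jHom62 w').comp (continuous_apply _)
  · intro x
    funext w'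
    rw [iotaInf62_apply]
    have h := jHom62_coe (K := K) w' ((WithAbs.equiv _).symm x)
    rw [gHom62_apply] at h
    simpa using h
  · intro w'
    rcases embedding_below62 (K := K) w' with h | h
    · exact Or.inl fun x => ext_embedding62 w' h _
    · exact Or.inr fun x => ext_embedding_conj62 w' h _

end Fermat.Agent.LT.T7.H62I

end
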